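/-
S36, block DESC (owner helper135).  A "finite level" form of Hilbert 90.

`Ω / K` is any field extension, `F` a field containing `Ω` on which `Aut (Ω / K)` acts
semilinearly, `H` a subgroup and `h : H → Fˣ` a 1-cocycle which is trivial on the elements of `H`
fixing a finite subextension `L`.  Then `h` is a coboundary.
-/
import Mathlib

set_option autoImplicit false

noncomputable section

namespace Fermat.Agent.S36.Desc

open scoped Classical in
/-- **Hilbert 90** for a cocycle of finite level. -/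
theorem hilbert90_finite_level {K Ω F : Type*} [Field K] [Field Ω] [Algebra K Ω] [Field F]
    [Algebra Ω F]
    (act : (Ω ≃ₐ[K] Ω) → F ≃+* F)
    (act_alg : ∀ σ c, act σ (algebraMap Ω F c) = algebraMap Ω F (σ c))
    (H : Subgroup (Ω ≃ₐ[K] Ω))
    (h : (Ω ≃ₐ[K] Ω) → F)
    (h_ne : ∀ σ ∈ H, h σ ≠ 0)
    (h_mul : ∀ σ ∈ H, ∀ τ ∈ H, h (σ * τ) = act σ (h τ) * h σ)
    (L : IntermediateField K Ω) [FiniteDimensional K L]
    (h_one : ∀ σ ∈ H, (∀ x ∈ L, σ x = x) → h σ = 1) :
    ∃ b : F, b ≠ 0 ∧ ∀ σ ∈ H, act σ b * h σ = b := by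
  -- restriction to `L`
  let res : (Ω ≃ₐ[K] Ω) → (L →ₐ[K] Ω) := fun σ => (σ : Ω →ₐ[K] Ω).comp L.val
  have res_apply : ∀ σ (y : L), res σ y = σ (y : Ω) := fun _ _ => rfl
  -- `h` only depends on the restriction
  have h_res : ∀ σ ∈ H, ∀ σ' ∈ H, res σ' = res σ → h σ = h σ' := by
    intro σ hσ σ' hσ' hres
    have hτ : σ'⁻¹ * σ ∈ H := H.mul_mem (H.inv_mem hσ') hσ
    have hfix : ∀ x ∈ L, (σ'⁻¹ * σ) x = x := by
      intro x hx
      have h1 : σ' x = σ x := DFunLike.congr_fun hres (⟨x, hx⟩ : L)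
      rw [AlgEquiv.mul_apply, ← h1]
      exact σ'.symm_apply_apply x
    have h2 := h_mul σ' hσ' _ hτ
    rw [mul_inv_cancel_left, h_one _ hτ hfix, map_one, one_mul] at h2
    exact h2
  let g : (L →ₐ[K] Ω) → F := fun r => if hr : ∃ σ ∈ H, res σ = r then h hr.choose else 0
  have g_res : ∀ σ ∈ H, g (res σ) = h σ := by
    intro σ hσ
    have hr : ∃ σ' ∈ H, res σ' = res σ := ⟨σ, hσ, rfl⟩
    show (if hr : ∃ σ' ∈ H, res σ' = res σ then h hr.choose else 0) = h σ
    rw [dif_pos hr]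
    exact (h_res σ hσ _ hr.choose_spec.1 hr.choose_spec.2).symm
  have g_not : ∀ r, (¬ ∃ σ ∈ H, res σ = r) → g r = 0 := fun r hr => dif_neg hr
  let tw : (Ω ≃ₐ[K] Ω) → (L →ₐ[K] Ω) → (L →ₐ[K] Ω) := fun σ r => (σ : Ω →ₐ[K] Ω).comp r
  have tw_apply : ∀ σ r (y : L), tw σ r y = σ (r y) := fun _ _ _ => rfl
  have tw_res : ∀ σ ρ, tw σ (res ρ) = res (σ * ρ) := fun _ _ => rfl
  have tw_inj : ∀ σ, Function.Injective (tw σ) := by
    intro σ r r' hrr
    ext y
    have := DFunLike.congr_fun hrr y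
    rw [tw_apply, tw_apply] at this
    exact σ.injective this
  have g_tw : ∀ σ ∈ H, ∀ r, g (tw σ r) = act σ (g r) * h σ := by
    intro σ hσ r
    by_cases hr : ∃ ρ ∈ H, res ρ = r
    · obtain ⟨ρ, hρ, rfl⟩ := hr
      rw [tw_res, g_res _ (H.mul_mem hσ hρ), g_res _ hρ, h_mul σ hσ ρ hρ]
    · have hr' : ¬ ∃ ρ ∈ H, res ρ = tw σ r := by
        rintro ⟨ρ, hρ, hρr⟩
        refine hr ⟨σ⁻¹ * ρ, H.mul_mem (H.inv_mem hσ) hρ, ?_⟩
        apply tw_inj σ
        rw [tw_res, mul_inv_cancel_left, hρr]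
      rw [g_not _ hr, g_not _ hr', map_zero, zero_mul]
  let b : L → F := fun y => ∑ r : L →ₐ[K] Ω, g r * algebraMap Ω F (r y)
  have b_act : ∀ σ ∈ H, ∀ y, act σ (b y) * h σ = b y := by
    intro σ hσ y
    have hbij : Function.Bijective (tw σ) := Finite.injective_iff_bijective.1 (tw_inj σ)
    show act σ (∑ r : L →ₐ[K] Ω, g r * algebraMap Ω F (r y)) * h σ =
      ∑ r : L →ₐ[K] Ω, g r * algebraMap Ω F (r y)
    rw [map_sum, Finset.sum_mul,
      ← hbij.sum_comp (fun r : L →ₐ[K] Ω => g r * algebraMap Ω F (r y))]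
    refine Finset.sum_congr rfl fun r _ => ?_
    rw [map_mul, act_alg, g_tw σ hσ, tw_apply]
    ring
  -- non-vanishing by independence of characters
  have hex : ∃ y, b y ≠ 0 := by
    by_contra hcon
    push Not at hcon
    let χ : (L →ₐ[K] Ω) → (L →* F) := fun r =>
      ((algebraMap Ω F).comp (r : L →+* Ω) : L →+* F)
    have χ_apply : ∀ r (y : L), χ r y = algebraMap Ω F (r y) := fun _ _ => rfl
    have χ_inj : Function.Injective χ := by
      intro r r' hrr
      ext y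
      have := DFunLike.congr_fun hrr y
      rw [χ_apply, χ_apply] at this
      exact (algebraMap Ω F).injective this
    have hli := (linearIndependent_monoidHom L F).comp χ χ_inj
    have hzero : ∑ r : L →ₐ[K] Ω, g r • ((fun f : L →* F => (f : L → F)) ∘ χ) r = 0 := by
      funext y
      rw [Finset.sum_apply]
      exact hcon y
    have h1 := Fintype.linearIndependent_iff.1 hli g hzero (res 1)
    rw [g_res 1 H.one_mem] at h1
    exact h_ne 1 H.one_mem h1
  obtain ⟨y, hy⟩ := hex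
  exact ⟨b y, hy, fun σ hσ => b_act σ hσ y⟩

end Fermat.Agent.S36.Desc

end
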