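/-
S36, block DESC (owner helper135).  Node D1: a class of the Kummer model `W N n` which is fixed by
a subgroup `H` of `G_ℚ` is represented by a Kummer unit which is itself fixed by `H`.

The obstruction in `H²(H, μ_n)` is killed by the rational cusp `∞` (normalise the leading
coefficient of the `q`-expansion), the obstruction in `H¹(H, Fˣ)` by Hilbert 90.
-/
import Fermat.Agent.GAL.E.FiniteLevel
import Fermat.Agent.S36.Desc.Hilbert90

set_option autoImplicit false

noncomputable section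

namespace Fermat.Agent.S36.Desc

open ModularCurve AlgebraicCurve Fermat.Agent.S24 Fermat.Agent.GAL.E

/-- the order of a Laurent series is not changed by an injective map on coefficients -/
theorem order_coeffMap {R S : Type*} [CommRing R] [CommRing S] (f : R →+* S)
    (hf : Function.Injective f) (x : LaurentSeries R) : (coeffMap f x).order = x.order := by
  rcases eq_or_ne x 0 with rfl | hx
  · simp
  have hx' : coeffMap f x ≠ 0 := by
    intro h
    apply hx
    ext k
    apply hf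
    rw [← coeffMap_coeff, h]
    simp
  apply le_antisymm
  · apply HahnSeries.order_le_of_coeff_ne_zero
    rw [coeffMap_coeff]
    intro h
    exact hx (HahnSeries.coeff_order_eq_zero.1 (hf (by rw [h, map_zero])))
  · apply HahnSeries.order_le_of_coeff_ne_zero
    intro h
    apply hx'
    apply HahnSeries.coeff_order_eq_zero.1
    rw [coeffMap_coeff, h, map_zero]

theorem leadingCoeff_coeffMap {R S : Type*} [CommRing R] [CommRing S] (f : R →+* S)
    (hf : Function.Injective f) (x : LaurentSeries R) :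
    (coeffMap f x).leadingCoeff = f x.leadingCoeff := by
  rw [HahnSeries.leadingCoeff_eq, HahnSeries.leadingCoeff_eq, order_coeffMap f hf, coeffMap_coeff]

/-- The leading coefficient of the `q`-expansion. -/
def lc (N : ℕ) : FN N →*₀ Kbar where
  toFun x := (x : LaurentSeries Kbar).leadingCoeff
  map_zero' := HahnSeries.leadingCoeff_zero
  map_one' := HahnSeries.leadingCoeff_one
  map_mul' _ _ := HahnSeries.leadingCoeff_mul _ _

theorem lc_apply (N : ℕ) (x : FN N) : lc N x = (x : LaurentSeries Kbar).leadingCoeff := rfl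

theorem lc_algebraMap (N : ℕ) (c : Kbar) : lc N (algebraMap Kbar (FN N) c) = c := by
  rw [lc_apply]
  have : ((algebraMap Kbar (FN N) c : FN N) : LaurentSeries Kbar) =
      algebraMap Kbar (LaurentSeries Kbar) c := rfl
  rw [this, algebraMap_laurentSeries_eq_single, HahnSeries.leadingCoeff_of_single]

theorem lc_galF (N : ℕ) (σ : GQ) (x : FN N) : lc N (galF N σ x) = σ (lc N x) := by
  rw [lc_apply, coe_galF, leadingCoeff_coeffMap _ σ.injective]
  rfl

/-- an `n`-th root of unity of `FN N` is a constant -/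
theorem exists_algebraMap_of_pow_eq_one (N : ℕ) {n : ℕ} (hn : 0 < n) {z : FN N} (hz : z ^ n = 1) :
    ∃ c : Kbar, algebraMap Kbar (FN N) c = z := by
  have hint : IsIntegral Kbar z :=
    ⟨Polynomial.X ^ n - Polynomial.C 1, Polynomial.monic_X_pow_sub_C 1 hn.ne', by simp [hz]⟩
  have hdeg := IsAlgClosed.degree_eq_one_of_irreducible Kbar (minpoly.irreducible hint)
  exact minpoly.mem_range_of_degree_eq_one Kbar z hdeg

/-- normalised `n`-th roots are unique -/
theorem eq_of_pow_eq_of_lc (N : ℕ) {n : ℕ} (hn : 0 < n) {a b : FN N} (hab : a ^ n = b ^ n)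
    (ha : lc N a = 1) (hb : lc N b = 1) : a = b := by
  have hb0 : b ≠ 0 := by
    rintro rfl
    rw [map_zero] at hb
    exact zero_ne_one hb
  obtain ⟨c, hc⟩ := exists_algebraMap_of_pow_eq_one N hn (z := a / b) (by
    rw [div_pow, hab, div_self (pow_ne_zero _ hb0)])
  have h1 : c = 1 := by
    rw [← lc_algebraMap N c, hc, map_div₀, ha, hb, div_one]
  rw [h1, map_one] at hc
  exact (div_eq_one_iff_eq hb0).1 hc.symm

theorem cls_eq_of_eq_mul_pow {N n : ℕ} (u v : kum N n) (w : FN N)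
    (h : ((u : (FN N)ˣ) : FN N) = ((v : (FN N)ˣ) : FN N) * w ^ n) : cls u = cls v := by
  have h1 : cls (u * v⁻¹) = 0 := by
    rw [cls_eq_zero_iff]
    apply mem_pows_of_eq_pow (w := w)
    have hv : ((v : (FN N)ˣ) : FN N) ≠ 0 := Units.ne_zero _
    show ((u : (FN N)ˣ) : FN N) * (((v : (FN N)ˣ)⁻¹ : (FN N)ˣ) : FN N) = w ^ n
    rw [Units.val_inv_eq_inv_val, h]
    field_simp
  rw [cls_mul, cls_inv] at h1
  exact sub_eq_zero.1 (by rw [sub_eq_add_neg]; exact h1)

theorem exists_eq_mul_pow_of_cls_eq {N n : ℕ} (u v : kum N n) (h : cls u = cls v) :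
    ∃ w : FN N, ((u : (FN N)ˣ) : FN N) = ((v : (FN N)ˣ) : FN N) * w ^ n := by
  have h1 : cls (u * v⁻¹) = 0 := by
    rw [cls_mul, cls_inv, h]
    exact add_neg_cancel (cls v)
  rw [cls_eq_zero_iff] at h1
  obtain ⟨w, hw⟩ := h1
  refine ⟨(w : FN N), ?_⟩
  have hv : ((v : (FN N)ˣ) : FN N) ≠ 0 := Units.ne_zero _
  have h2 : ((w ^ n : (FN N)ˣ) : FN N) =
      ((u : (FN N)ˣ) : FN N) * (((v : (FN N)ˣ)⁻¹ : (FN N)ˣ) : FN N) := congrArg Units.val hw
  rw [Units.val_pow_eq_pow_val, Units.val_inv_eq_inv_val] at h2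
  rw [h2]
  field_simp

/-- **D1, field form.**  If `σ x / x` is an `n`-th power for every `σ ∈ H`, then `x` can be
multiplied by an `n`-th power so as to become `H`-invariant. -/
theorem exists_fixed_mul_pow (N n : ℕ) (hn : 0 < n) (H : Subgroup GQ) (x : FN N) (hx : x ≠ 0)
    (hH : ∀ σ ∈ H, ∃ w : FN N, galF N σ x = x * w ^ n) :
    ∃ b : FN N, b ≠ 0 ∧ ∀ σ ∈ H, galF N σ (x * b ^ n) = x * b ^ n := by
  -- normalise the leading coefficient
  have hc : lc N x ≠ 0 := (map_ne_zero _).2 hx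
  obtain ⟨d, hd⟩ := IsAlgClosed.exists_pow_nat_eq (lc N x) hn
  have hd0 : d ≠ 0 := by
    rintro rfl
    rw [zero_pow hn.ne'] at hd
    exact hc hd.symm
  set e : FN N := algebraMap Kbar (FN N) d⁻¹ with he
  have he0 : e ≠ 0 := by
    rw [he, Ne, map_eq_zero]
    exact inv_ne_zero hd0
  set x1 : FN N := x * e ^ n with hx1
  have hx10 : x1 ≠ 0 := mul_ne_zero hx (pow_ne_zero _ he0)
  have hlc1 : lc N x1 = 1 := by
    rw [hx1, map_mul, map_pow, he, lc_algebraMap, ← hd, inv_pow,
      mul_inv_cancel₀ (pow_ne_zero _ hd0)]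
  -- the normalised roots
  have hroot : ∀ σ : GQ, ∃ h : FN N, σ ∈ H → (h ^ n * x1 = galF N σ x1 ∧ lc N h = 1) := by
    intro σ
    by_cases hσ : σ ∈ H
    · obtain ⟨w, hw⟩ := hH σ hσ
      set w1 : FN N := w * (galF N σ e / e) with hw1
      have h1 : w1 ^ n * x1 = galF N σ x1 := by
        rw [hx1, map_mul, map_pow, hw, hw1, mul_pow, div_pow]
        field_simp
      have h2 : lc N w1 ^ n = 1 := by
        have := congrArg (lc N) h1
        rw [map_mul, map_pow, lc_galF, hlc1, map_one, mul_one] at this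
        exact this
      have h3 : lc N w1 ≠ 0 := by
        intro h0
        rw [h0, zero_pow hn.ne'] at h2
        exact zero_ne_one h2
      refine ⟨w1 * algebraMap Kbar (FN N) (lc N w1)⁻¹, fun _ => ⟨?_, ?_⟩⟩
      · rw [mul_pow, ← map_pow, inv_pow, h2, inv_one, map_one, mul_one, h1]
      · rw [map_mul, lc_algebraMap, mul_inv_cancel₀ h3]
    · exact ⟨0, fun h => absurd h hσ⟩
  choose h hh using hroot
  have h_ne : ∀ σ ∈ H, h σ ≠ 0 := by
    intro σ hσ h0
    have := (hh σ hσ).2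
    rw [h0, map_zero] at this
    exact zero_ne_one this
  have h_mul : ∀ σ ∈ H, ∀ τ ∈ H, h (σ * τ) = galF N σ (h τ) * h σ := by
    intro σ hσ τ hτ
    apply eq_of_pow_eq_of_lc N hn
    · apply mul_right_cancel₀ hx10
      rw [(hh _ (H.mul_mem hσ hτ)).1, galF_mul, ← (hh τ hτ).1, map_mul, map_pow,
        ← (hh σ hσ).1]
      ring
    · exact (hh _ (H.mul_mem hσ hτ)).2
    · rw [map_mul, lc_galF, (hh τ hτ).2, (hh σ hσ).2, map_one, one_mul]
  obtain ⟨L, hL, hLfix⟩ := exists_finite_level N x1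
  have h_one : ∀ σ ∈ H, (∀ y ∈ L, σ y = y) → h σ = 1 := by
    intro σ hσ hfix
    apply eq_of_pow_eq_of_lc N hn
    · apply mul_right_cancel₀ hx10
      rw [(hh σ hσ).1, hLfix σ hfix, one_pow, one_mul]
    · exact (hh σ hσ).2
    · exact map_one _
  obtain ⟨b, hb0, hb⟩ := hilbert90_finite_level (galF N) (galF_algebraMap N) H h h_ne h_mul L h_one
  refine ⟨e * b, mul_ne_zero he0 hb0, fun σ hσ => ?_⟩
  have h1 : x * (e * b) ^ n = x1 * b ^ n := by rw [hx1, mul_pow, mul_assoc]
  rw [h1, map_mul, map_pow, ← (hh σ hσ).1]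
  conv_rhs => rw [← hb σ hσ]
  ring

/-- **D1.**  A class of the Kummer model fixed by `H` has an `H`-invariant representative. -/
theorem exists_fixed_rep (N n : ℕ) (hn : 0 < n) (H : Subgroup GQ) (u : kum N n)
    (hu : ∀ σ ∈ H, rho N n σ (cls u) = cls u) :
    ∃ u' : kum N n, cls u' = cls u ∧
      ∀ σ ∈ H, galF N σ ((u' : (FN N)ˣ) : FN N) = ((u' : (FN N)ˣ) : FN N) := by
  have hx : ((u : (FN N)ˣ) : FN N) ≠ 0 := Units.ne_zero _
  obtain ⟨b, hb0, hb⟩ := exists_fixed_mul_pow N n hn H ((u : (FN N)ˣ) : FN N) hx (by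
    intro σ hσ
    have h1 := hu σ hσ
    rw [rho_cls] at h1
    exact exists_eq_mul_pow_of_cls_eq _ _ h1)
  have hne : ((u : (FN N)ˣ) : FN N) * b ^ n ≠ 0 := mul_ne_zero hx (pow_ne_zero _ hb0)
  refine ⟨⟨Units.mk0 _ hne, ?_⟩, ?_, hb⟩
  · show IsKum N n (((u : (FN N)ˣ) : FN N) * b ^ n)
    exact IsKum.mul u.2 (isKum_pow_self N n b)
  · exact cls_eq_of_eq_mul_pow _ _ b rfl

end Fermat.Agent.S36.Desc

end
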