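/-
S36, block DESC (owner helper135).  Node D2: descent of the field of constants.

If `L' / L` is any extension of fields of characteristic zero and `y ∈ L((q))` becomes an element
of `L' · F₀` after extension of the coefficients, then `y ∈ L · F₀`.  In particular the elements of
`FN N = ℚ̄ · F₀` fixed by the inertia group of `A` come from `K0 A · F₀`.
-/
import Fermat.Agent.S18.Descent.Indep
import Fermat.Agent.S18.Descent.Union
import Fermat.Agent.Lib.InertiaField.Defs
import Fermat.Agent.S36.Desc.FixedRep

set_option autoImplicit false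

noncomputable section

namespace Fermat.Agent.S36.Desc

open ModularCurve AlgebraicCurve Fermat.Agent.S24 Fermat.Agent.GAL.E Fermat.Agent.S18.Descent

section General

variable {L L' : Type*} [Field L] [Field L'] [Algebra ℚ L] [Algebra ℚ L'] [Algebra L L']
variable (F₀ : IntermediateField ℚ (LaurentSeries ℚ))

/-- the ring generated by `L'` and `F₀` is the `L'`-span of `F₀` -/
theorem adjoin_coeffEmb_eq_span :
    Subalgebra.toSubmodule (Algebra.adjoin L' (⇑(coeffEmb L') '' (F₀ : Set (LaurentSeries ℚ)))) =
      @Submodule.span L' (LaurentSeries L') _ _ Algebra.toModule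
        (⇑(coeffEmb L') '' (F₀ : Set (LaurentSeries ℚ))) := by
  rw [Algebra.adjoin_eq_span]
  congr 1
  have h := Submonoid.closure_eq
    (Submonoid.map ((coeffEmb L' : LaurentSeries ℚ →+* LaurentSeries L') :
      LaurentSeries ℚ →* LaurentSeries L') F₀.toSubalgebra.toSubmonoid)
  exact congrArg (fun S : Submonoid (LaurentSeries L') => (S : Set (LaurentSeries L'))) h

variable {F₀}

theorem coeffLin_coeffEmb (lam : L' →ₗ[L] L) (f : LaurentSeries ℚ) :
    coeffLin lam (coeffEmb L' f) = coeffEmb L f * algebraMap L (LaurentSeries L) (lam 1) := by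
  have h := coeffLin_mul lam (coeffEmb L f) (algebraMap L' (LaurentSeries L') 1)
  rw [coeffMap_coeffEmb', map_one, mul_one] at h
  rw [h, ← coeffLin_algebraMap, map_one]

theorem coeffLin_mem_of_mem_span {P : LaurentSeries L'}
    (hP : P ∈ @Submodule.span L' (LaurentSeries L') _ _ Algebra.toModule
      (⇑(coeffEmb L') '' (F₀ : Set (LaurentSeries ℚ)))) :
    ∀ lam : L' →ₗ[L] L, coeffLin lam P ∈ laurentBaseChange L F₀ := by
  induction hP using Submodule.span_induction with
  | mem x hx =>
      intro lam
      obtain ⟨f, hf, rfl⟩ := hx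
      rw [coeffLin_coeffEmb]
      exact mul_mem (coeffEmb_mem_laurentBaseChange L hf) ((laurentBaseChange L F₀).algebraMap_mem _)
  | zero =>
      intro lam
      rw [coeffLin_zero]
      exact zero_mem _
  | add x y _ _ hx hy =>
      intro lam
      rw [coeffLin_add]
      exact add_mem (hx lam) (hy lam)
  | smul c x _ hx =>
      intro lam
      have h : coeffLin lam (algebraMap L' (LaurentSeries L') c * x) =
          coeffLin (lam.comp (LinearMap.mulLeft L c)) x := by
        ext k
        rw [algebraMap_laurentSeries_eq_single, coeffLin_coeff, coeffLin_coeff,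
          HahnSeries.coeff_single_zero_mul]
        rfl
      rw [Algebra.smul_def, h]
      exact hx _

/-- **Descent of the field of constants**: a series with coefficients in `L` which lies in
`L' · F₀` lies in `L · F₀`. -/
theorem mem_laurentBaseChange_of_coeffMap_mem {y : LaurentSeries L}
    (hy : coeffMap (algebraMap L L') y ∈ laurentBaseChange L' F₀) :
    y ∈ laurentBaseChange L F₀ := by
  obtain ⟨r, hr, s, hs, hrs⟩ := IntermediateField.mem_adjoin_iff_div.1 hy
  have hr' : r ∈ @Submodule.span L' (LaurentSeries L') _ _ Algebra.toModule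
      (⇑(coeffEmb L') '' (F₀ : Set (LaurentSeries ℚ))) := by
    rw [← adjoin_coeffEmb_eq_span]; exact hr
  have hs' : s ∈ @Submodule.span L' (LaurentSeries L') _ _ Algebra.toModule
      (⇑(coeffEmb L') '' (F₀ : Set (LaurentSeries ℚ))) := by
    rw [← adjoin_coeffEmb_eq_span]; exact hs
  rcases eq_or_ne s 0 with rfl | hs0
  · rw [div_zero] at hrs
    have : y = 0 := coeffMap_injective _ (algebraMap L L').injective (by rw [hrs, map_zero])
    rw [this]
    exact zero_mem _
  obtain ⟨k, hk⟩ : ∃ k, s.coeff k ≠ 0 := by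
    by_contra hcon
    push Not at hcon
    exact hs0 (HahnSeries.ext (funext hcon))
  obtain ⟨lam, hlam⟩ : ∃ lam : L' →ₗ[L] L, lam (s.coeff k) ≠ 0 := by
    by_contra hcon
    push Not at hcon
    exact hk ((Module.forall_dual_apply_eq_zero_iff L (s.coeff k)).1 hcon)
  have hls : coeffLin lam s ≠ 0 := by
    intro h0
    apply hlam
    rw [← coeffLin_coeff, h0]
    rfl
  have h1 : y * coeffLin lam s = coeffLin lam r := by
    rw [← coeffLin_mul, hrs, div_mul_cancel₀ _ hs0]
  have h2 : y = coeffLin lam r / coeffLin lam s := by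
    rw [← h1, mul_div_cancel_right₀ _ hls]
  rw [h2]
  exact div_mem (coeffLin_mem_of_mem_span hr' lam) (coeffLin_mem_of_mem_span hs' lam)

end General

section Lift

variable {Ω : Type*} [Field Ω] [Algebra ℚ Ω]

/-- a series all of whose coefficients lie in the subfield `K₀`, as a series over `K₀` -/
def liftField (K₀ : IntermediateField ℚ Ω) (x : LaurentSeries Ω) (hx : ∀ k, x.coeff k ∈ K₀) :
    LaurentSeries K₀ where
  coeff k := ⟨x.coeff k, hx k⟩
  isPWO_support' := x.isPWO_support.mono fun k hk => by
    simp only [Function.mem_support, ne_eq] at hk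
    simp only [HahnSeries.mem_support, ne_eq]
    intro h0
    exact hk (Subtype.ext h0)

theorem coeffMap_liftField (K₀ : IntermediateField ℚ Ω) (x : LaurentSeries Ω)
    (hx : ∀ k, x.coeff k ∈ K₀) : coeffMap (algebraMap K₀ Ω) (liftField K₀ x hx) = x := by
  ext k
  rfl

/-- an element of `Ω · F₀` with coefficients in `K₀` is defined over `K₀` -/
theorem definedOver_of_coeff_mem {F₀ : IntermediateField ℚ (LaurentSeries ℚ)}
    (K₀ : IntermediateField ℚ Ω) {x : LaurentSeries Ω} (hx : x ∈ laurentBaseChange Ω F₀)
    (hc : ∀ k, x.coeff k ∈ K₀) : DefinedOver F₀ K₀ x :=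
  ⟨liftField K₀ x hc,
    mem_laurentBaseChange_of_coeffMap_mem (L' := Ω) (by rw [coeffMap_liftField]; exact hx),
    coeffMap_liftField K₀ x hc⟩

end Lift

open Fermat.Agent.Lib.InertiaField in
/-- **D2.**  An element of `FN N` fixed by the inertia group of `A` is defined over the inertia
field `K0 A`. -/
theorem exists_K0_model (N : ℕ) (A : ValuationSubring Kbar) (x : FN N)
    (hx : ∀ σ ∈ A.inertiaSubgroupIn ℚ, galF N σ x = x) :
    ∃ y ∈ laurentBaseChange (K0 A) (modularFunctionFieldFull N),
      coeffMap (algebraMap (K0 A) Kbar) y = (x : LaurentSeries Kbar) := by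
  refine definedOver_of_coeff_mem (K0 A) x.2 fun k => ?_
  rw [mem_K0_iff]
  intro σ hσ
  have h := congrArg (fun z : FN N => (z : LaurentSeries Kbar).coeff k) (hx σ hσ)
  exact h

open Fermat.Agent.Lib.InertiaField in
/-- conversely the elements defined over `K0 A` are fixed by inertia -/
theorem galF_eq_of_K0_model (N : ℕ) (A : ValuationSubring Kbar) (x : FN N)
    (y : LaurentSeries (K0 A)) (hy : coeffMap (algebraMap (K0 A) Kbar) y = (x : LaurentSeries Kbar))
    (σ : Kbar ≃ₐ[ℚ] Kbar) (hσ : σ ∈ A.inertiaSubgroupIn ℚ) : galF N σ x = x := by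
  apply Subtype.ext
  rw [coe_galF, ← hy, coeffMap_coeffMap]
  exact coeffMap_congr (RingHom.ext fun c : K0 A => (mem_K0_iff A c).1 c.2 σ hσ) y

open Fermat.Agent.Lib.InertiaField in
/-- **D3.**  A class of the Kummer model `W N n` which is fixed by the inertia group of `A` is
represented by a Kummer unit defined over the inertia field `K0 A`. -/
theorem exists_K0_rep (N n : ℕ) (hn : 0 < n) (A : ValuationSubring Kbar) (w : W N n)
    (hw : ∀ σ ∈ A.inertiaSubgroupIn ℚ, rho N n σ w = w) :
    ∃ (u : kum N n) (y : laurentBaseChange (K0 A) (modularFunctionFieldFull N)),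
      cls u = w ∧ baseChangeMap (modularFunctionFieldFull N) (algebraMap (K0 A) Kbar) y =
        ((u : (FN N)ˣ) : FN N) := by
  obtain ⟨u, rfl⟩ := cls_surjective w
  obtain ⟨u', hu', hfix⟩ := exists_fixed_rep N n hn (A.inertiaSubgroupIn ℚ) u hw
  obtain ⟨y, hy, hyx⟩ := exists_K0_model N A _ hfix
  exact ⟨u', ⟨y, hy⟩, hu', Subtype.ext hyx⟩

end Fermat.Agent.S36.Desc

end
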