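/-
S36, block DESC (owner helper135).  Mathlib only.  Norms in a commutative square of fields
```
  F0 --ψ--> F
  |         |
  E0 --φ--> E
```
such that `ψ` maps `E0`-bases of `F0` to `E`-bases of `F` (i.e. `F = E ⊗_{E0} F0`).
-/
import Mathlib

set_option autoImplicit false

noncomputable section

namespace Fermat.Agent.S36.Desc

universe u

theorem norm_map_of_basis {E0 F0 E F : Type*} [Field E0] [Field F0] [Field E] [Field F]
    [Algebra E0 F0] [Algebra E F] (φ : E0 →+* E) (ψ : F0 →+* F)
    (hsq : ∀ e, ψ (algebraMap E0 F0 e) = algebraMap E F (φ e))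
    {ι : Type*} [Fintype ι] [DecidableEq ι] (b : Module.Basis ι E0 F0) (b' : Module.Basis ι E F)
    (hb : ∀ i, b' i = ψ (b i)) (y : F0) :
    Algebra.norm E (ψ y) = φ (Algebra.norm E0 y) := by
  rw [Algebra.norm_eq_matrix_det b', Algebra.norm_eq_matrix_det b, RingHom.map_det]
  congr 1
  ext i j
  rw [RingHom.mapMatrix_apply, Matrix.map_apply, Algebra.leftMulMatrix_eq_repr_mul,
    Algebra.leftMulMatrix_eq_repr_mul]
  have h1 : ψ y * b' j = ∑ k, φ (b.repr (y * b j) k) • b' k := by
    rw [hb, ← map_mul]
    conv_lhs => rw [← b.sum_repr (y * b j)]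
    rw [map_sum]
    refine Finset.sum_congr rfl fun k _ => ?_
    rw [Algebra.smul_def, map_mul, hsq, hb, Algebra.smul_def]
  rw [h1, b'.repr_sum_self]

/-- **Base change of norms**, no finiteness hypothesis. -/
theorem norm_map_of_li_span {E0 E F : Type*} {F0 : Type u} [Field E0] [Field F0] [Field E]
    [Field F] [Algebra E0 F0] [Algebra E F] (φ : E0 →+* E) (ψ : F0 →+* F)
    (hsq : ∀ e, ψ (algebraMap E0 F0 e) = algebraMap E F (φ e))
    (hli : ∀ (ι : Type u) (b : ι → F0), LinearIndependent E0 b → LinearIndependent E (ψ ∘ b))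
    (hsp : ∀ (ι : Type u) (b : ι → F0), ⊤ ≤ Submodule.span E0 (Set.range b) →
      ⊤ ≤ Submodule.span E (Set.range (ψ ∘ b)))
    (y : F0) : Algebra.norm E (ψ y) = φ (Algebra.norm E0 y) := by
  classical
  let b := Module.Free.chooseBasis E0 F0
  have hli' := hli _ b b.linearIndependent
  have hsp' := hsp _ b b.span_eq.ge
  by_cases hfin : Module.Finite E0 F0
  · exact norm_map_of_basis φ ψ hsq b (Module.Basis.mk hli' hsp')
      (fun i => by rw [Module.Basis.mk_apply]; rfl) y
  · have hfin' : ¬ Module.Finite E F := by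
      intro h
      have : Finite (Module.Free.ChooseBasisIndex E0 F0) := hli'.finite_of_isNoetherian
      exact hfin (Module.Finite.of_basis b)
    rw [Algebra.norm_eq_one_of_not_module_finite hfin, Algebra.norm_eq_one_of_not_module_finite hfin',
      map_one]

/-- the degree is preserved as well -/
theorem finrank_eq_of_li_span {E0 E F : Type*} {F0 : Type u} [Field E0] [Field F0] [Field E]
    [Field F] [Algebra E0 F0] [Algebra E F] (ψ : F0 →+* F)
    (hli : ∀ (ι : Type u) (b : ι → F0), LinearIndependent E0 b → LinearIndependent E (ψ ∘ b))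
    (hsp : ∀ (ι : Type u) (b : ι → F0), ⊤ ≤ Submodule.span E0 (Set.range b) →
      ⊤ ≤ Submodule.span E (Set.range (ψ ∘ b))) :
    Module.finrank E F = Module.finrank E0 F0 := by
  classical
  let b := Module.Free.chooseBasis E0 F0
  have hli' := hli _ b b.linearIndependent
  have hsp' := hsp _ b b.span_eq.ge
  rw [Module.finrank_eq_nat_card_basis b, Module.finrank_eq_nat_card_basis (Module.Basis.mk hli' hsp')]

end Fermat.Agent.S36.Desc

end
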