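/-
S36, block DESC (owner helper135).  If `L' / ℚ` is algebraic, the field `L' · F₀` is the `L'`-span
of `F₀`; consequently the coefficientwise `L`-linear forms `coeffLin lam` map `L' · F₀` to `L · F₀`.
-/
import Fermat.Agent.S36.Desc.Model

set_option autoImplicit false

noncomputable section

namespace Fermat.Agent.S36.Desc

open ModularCurve Fermat.Agent.S18.Descent

variable {L L' : Type*} [Field L] [Field L'] [Algebra ℚ L] [Algebra ℚ L'] [Algebra L L']
variable {F₀ : IntermediateField ℚ (LaurentSeries ℚ)}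

/-- the ring `L'[F₀]` is stable under inversion when `L' / ℚ` is algebraic -/
theorem inv_mem_adjoin_coeffEmb [Algebra.IsAlgebraic ℚ L'] {s : LaurentSeries L'}
    (hs : s ∈ Algebra.adjoin L' (⇑(coeffEmb L') '' (F₀ : Set (LaurentSeries ℚ)))) :
    s⁻¹ ∈ Algebra.adjoin L' (⇑(coeffEmb L') '' (F₀ : Set (LaurentSeries ℚ))) := by
  set S := Algebra.adjoin L' (⇑(coeffEmb L') '' (F₀ : Set (LaurentSeries ℚ))) with hS
  letI : Algebra F₀ (LaurentSeries L') :=
    ((coeffEmb L').comp (algebraMap F₀ (LaurentSeries ℚ))).toAlgebra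
  have halg : ∀ f : F₀, algebraMap F₀ (LaurentSeries L') f = coeffEmb L' (f : LaurentSeries ℚ) :=
    fun _ => rfl
  let A : Subalgebra F₀ (LaurentSeries L') :=
    { S.toSubsemiring with
      algebraMap_mem' := fun f => Algebra.subset_adjoin ⟨f, f.2, rfl⟩ }
  have hA : ∀ z, z ∈ A ↔ z ∈ S := fun _ => Iff.rfl
  have key : ∀ z ∈ S, IsAlgebraic F₀ z := by
    intro z hz
    induction hz using Algebra.adjoin_induction with
    | mem x hx =>
        obtain ⟨f, hf, rfl⟩ := hx
        exact isAlgebraic_algebraMap (⟨f, hf⟩ : F₀)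
    | algebraMap c =>
        obtain ⟨p, hp0, hpc⟩ := Algebra.IsAlgebraic.isAlgebraic (R := ℚ) c
        refine ⟨p.map (algebraMap ℚ F₀),
          (Polynomial.map_ne_zero_iff (algebraMap ℚ F₀).injective).2 hp0, ?_⟩
        rw [Polynomial.aeval_def, Polynomial.eval₂_map]
        have h1 : (algebraMap F₀ (LaurentSeries L')).comp (algebraMap ℚ F₀) =
            (algebraMap L' (LaurentSeries L')).comp (algebraMap ℚ L') := Subsingleton.elim _ _
        rw [h1, ← Polynomial.hom_eval₂, ← Polynomial.aeval_def, hpc, map_zero]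
    | add x y _ _ hx hy => exact hx.add hy
    | mul x y _ _ hx hy => exact hx.mul hy
  exact (hA _).1 (A.inv_mem_of_algebraic (x := ⟨s, (hA s).2 hs⟩) (key s hs))

/-- **`L' · F₀` is the `L'`-span of `F₀`** (`L' / ℚ` algebraic). -/
theorem mem_span_of_mem_laurentBaseChange [Algebra.IsAlgebraic ℚ L'] {x : LaurentSeries L'}
    (hx : x ∈ laurentBaseChange L' F₀) :
    x ∈ @Submodule.span L' (LaurentSeries L') _ _ Algebra.toModule
      (⇑(coeffEmb L') '' (F₀ : Set (LaurentSeries ℚ))) := by
  obtain ⟨r, hr, s, hs, rfl⟩ := IntermediateField.mem_adjoin_iff_div.1 hx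
  rw [← adjoin_coeffEmb_eq_span, div_eq_mul_inv]
  exact (Algebra.adjoin L' (⇑(coeffEmb L') '' (F₀ : Set (LaurentSeries ℚ)))).mul_mem hr
    (inv_mem_adjoin_coeffEmb hs)

/-- the coefficientwise linear forms map `L' · F₀` to `L · F₀` -/
theorem coeffLin_mem_laurentBaseChange [Algebra.IsAlgebraic ℚ L'] (lam : L' →ₗ[L] L)
    {x : LaurentSeries L'} (hx : x ∈ laurentBaseChange L' F₀) :
    coeffLin lam x ∈ laurentBaseChange L F₀ :=
  coeffLin_mem_of_mem_span (mem_span_of_mem_laurentBaseChange hx) lam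

omit [Algebra ℚ L] [Algebra ℚ L'] in
/-- a series killed by all coefficientwise linear forms is zero -/
theorem eq_zero_of_forall_coeffLin {x : LaurentSeries L'}
    (h : ∀ lam : L' →ₗ[L] L, coeffLin lam x = 0) : x = 0 := by
  ext k
  apply (Module.forall_dual_apply_eq_zero_iff L (x.coeff k)).1
  intro lam
  rw [← coeffLin_coeff, h lam]
  rfl

end Fermat.Agent.S36.Desc

end
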