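/-
S36, block DESC (owner helper135).  L-BR (ii)(b): the norms along the two degeneracy maps
`α, β : L · F(N) → L · F(N ℓ)` commute with the extension of the field of constants `L → L'`
(`L' / ℚ` algebraic), and the degrees do not change.
-/
import Fermat.Agent.S36.Desc.Span
import Fermat.Agent.S36.Desc.NormBasis
import Fermat.Agent.S36.Norm.Along
import Fermat.Prelude.Thm_ModularCurve_coeffMap_qExpand

set_option autoImplicit false
set_option linter.style.haveILetI false

noncomputable section

namespace Fermat.Agent.S36.Desc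

open ModularCurve Fermat.Agent.S18.Descent Fermat.Agent.S36.Norm

section General

variable {L L' : Type*} [Field L] [Field L'] [Algebra ℚ L] [Algebra ℚ L'] [Algebra L L']
  [Algebra.IsAlgebraic ℚ L']
variable {F₀ F₁ : IntermediateField ℚ (LaurentSeries ℚ)}

/-- A pair of embeddings `L · F₀ → L · F₁`, `L' · F₀ → L' · F₁` "defined by the same formula". -/
structure Compat (f : laurentBaseChange L F₀ →+* laurentBaseChange L F₁)
    (f' : laurentBaseChange L' F₀ →+* laurentBaseChange L' F₁) : Prop where
  sq : ∀ e, baseChangeMap F₁ (algebraMap L L') (f e) = f' (baseChangeMap F₀ (algebraMap L L') e)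
  const : ∀ c : L', f' (algebraMap L' (laurentBaseChange L' F₀) c) =
    algebraMap L' (laurentBaseChange L' F₁) c
  lin : ∀ (lam : L' →ₗ[L] L) (e : laurentBaseChange L' F₀),
    coeffLin lam (f' e : LaurentSeries L') =
      (f ⟨coeffLin lam (e : LaurentSeries L'), coeffLin_mem_laurentBaseChange lam e.2⟩ :
        LaurentSeries L)

variable {f : laurentBaseChange L F₀ →+* laurentBaseChange L F₁}
  {f' : laurentBaseChange L' F₀ →+* laurentBaseChange L' F₁}

theorem Compat.linearIndependent (h : Compat f f') {ι : Type*} (b : ι → laurentBaseChange L F₁)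
    (hb : @LinearIndependent ι (laurentBaseChange L F₀) (laurentBaseChange L F₁) b _ _
      f.toAlgebra.toModule) :
    @LinearIndependent ι (laurentBaseChange L' F₀) (laurentBaseChange L' F₁)
      (baseChangeMap F₁ (algebraMap L L') ∘ b) _ _ f'.toAlgebra.toModule := by
  letI := f.toAlgebra
  letI := f'.toAlgebra
  rw [linearIndependent_iff'] at hb ⊢
  intro s g hg i hi
  apply Subtype.ext
  apply eq_zero_of_forall_coeffLin (L := L)
  intro lam
  have h1 : ∑ i ∈ s, (⟨coeffLin lam (g i : LaurentSeries L'),
      coeffLin_mem_laurentBaseChange lam (g i).2⟩ : laurentBaseChange L F₀) • b i = 0 := by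
    apply Subtype.ext
    have h2 := congrArg (fun z : laurentBaseChange L' F₁ => coeffLin lam (z : LaurentSeries L')) hg
    simp only [AddSubmonoidClass.coe_finsetSum, ZeroMemClass.coe_zero] at h2 ⊢
    rw [coeffLin_sum, coeffLin_zero] at h2
    rw [← h2]
    refine Finset.sum_congr rfl fun j _ => ?_
    have h3 : ((g j • (baseChangeMap F₁ (algebraMap L L') ∘ b) j : laurentBaseChange L' F₁) :
        LaurentSeries L') = coeffMap (algebraMap L L') (b j : LaurentSeries L) *
          (f' (g j) : LaurentSeries L') := by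
      rw [Algebra.smul_def, mul_comm]
      rfl
    rw [h3, coeffLin_mul, h.lin, Algebra.smul_def, mul_comm]
    rfl
  exact congrArg Subtype.val (hb s _ h1 i hi)

theorem Compat.span (h : Compat f f') {ι : Type*} (b : ι → laurentBaseChange L F₁)
    (hb : ⊤ ≤ @Submodule.span (laurentBaseChange L F₀) (laurentBaseChange L F₁) _ _
      f.toAlgebra.toModule (Set.range b)) :
    ⊤ ≤ @Submodule.span (laurentBaseChange L' F₀) (laurentBaseChange L' F₁) _ _
      f'.toAlgebra.toModule (Set.range (baseChangeMap F₁ (algebraMap L L') ∘ b)) := by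
  letI := f.toAlgebra
  letI := f'.toAlgebra
  set T := Submodule.span (laurentBaseChange L' F₀)
    (Set.range (baseChangeMap F₁ (algebraMap L L') ∘ b)) with hT
  -- `ψ` maps `F⁰` into `T`
  have hψ : ∀ z : laurentBaseChange L F₁, baseChangeMap F₁ (algebraMap L L') z ∈ T := by
    intro z
    have hz : z ∈ Submodule.span (laurentBaseChange L F₀) (Set.range b) := hb trivial
    induction hz using Submodule.span_induction with
    | mem x hx =>
        obtain ⟨i, rfl⟩ := hx
        exact Submodule.subset_span ⟨i, rfl⟩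
    | zero => rw [map_zero]; exact zero_mem _
    | add x y _ _ hx hy => rw [map_add]; exact add_mem hx hy
    | smul a x _ hx =>
        have : baseChangeMap F₁ (algebraMap L L') (a • x) =
            baseChangeMap F₀ (algebraMap L L') a • baseChangeMap F₁ (algebraMap L L') x := by
          rw [Algebra.smul_def, Algebra.smul_def, map_mul]
          congr 1
          exact h.sq a
        rw [this]
        exact T.smul_mem _ hx
  have key : ∀ z ∈ @Submodule.span L' (LaurentSeries L') _ _ Algebra.toModule
      (⇑(coeffEmb L') '' (F₁ : Set (LaurentSeries ℚ))),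
      ∃ hz : z ∈ laurentBaseChange L' F₁, (⟨z, hz⟩ : laurentBaseChange L' F₁) ∈ T := by
    intro z hz
    induction hz using Submodule.span_induction with
    | mem x hx =>
        obtain ⟨g, hg, rfl⟩ := hx
        refine ⟨coeffEmb_mem_laurentBaseChange L' hg, ?_⟩
        have := hψ ⟨coeffEmb L g, coeffEmb_mem_laurentBaseChange L hg⟩
        have h2 : baseChangeMap F₁ (algebraMap L L')
            ⟨coeffEmb L g, coeffEmb_mem_laurentBaseChange L hg⟩ =
            ⟨coeffEmb L' g, coeffEmb_mem_laurentBaseChange L' hg⟩ :=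
          Subtype.ext (coeffMap_coeffEmb' _ _)
        rwa [h2] at this
    | zero => exact ⟨zero_mem _, T.zero_mem⟩
    | add x y _ _ hx hy =>
        obtain ⟨hx1, hx2⟩ := hx
        obtain ⟨hy1, hy2⟩ := hy
        exact ⟨add_mem hx1 hy1, T.add_mem hx2 hy2⟩
    | smul c x _ hx =>
        obtain ⟨hx1, hx2⟩ := hx
        rw [Algebra.smul_def]
        have hmem : algebraMap L' (LaurentSeries L') c * x ∈ laurentBaseChange L' F₁ :=
          mul_mem ((laurentBaseChange L' F₁).algebraMap_mem c) hx1
        refine ⟨hmem, ?_⟩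
        have h2 : (⟨algebraMap L' (LaurentSeries L') c * x, hmem⟩ : laurentBaseChange L' F₁) =
            algebraMap L' (laurentBaseChange L' F₀) c • (⟨x, hx1⟩ : laurentBaseChange L' F₁) := by
          rw [Algebra.smul_def]
          have h3 : algebraMap (laurentBaseChange L' F₀) (laurentBaseChange L' F₁)
              (algebraMap L' (laurentBaseChange L' F₀) c) =
              algebraMap L' (laurentBaseChange L' F₁) c := h.const c
          rw [h3]
          rfl
        rw [h2]
        exact T.smul_mem _ hx2
  intro x _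
  obtain ⟨_, hx⟩ := key x (mem_span_of_mem_laurentBaseChange x.2)
  exact hx

/-- **Norms commute with the extension of constants.** -/
theorem Compat.nm_baseChangeMap (h : Compat f f') (y : laurentBaseChange L F₁) :
    nm f' (baseChangeMap F₁ (algebraMap L L') y) =
      baseChangeMap F₀ (algebraMap L L') (nm f y) :=
  @norm_map_of_li_span _ _ _ _ _ _ _ _ f.toAlgebra f'.toAlgebra (baseChangeMap F₀ (algebraMap L L'))
    (baseChangeMap F₁ (algebraMap L L')) h.sq (fun _ b hb => h.linearIndependent b hb)
    (fun _ b hb => h.span b hb) y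

/-- **The degree does not change under extension of constants.** -/
theorem Compat.dg_eq (h : Compat f f') : dg f' = dg f :=
  @finrank_eq_of_li_span _ _ _ _ _ _ _ _ f.toAlgebra f'.toAlgebra
    (baseChangeMap F₁ (algebraMap L L'))
    (fun _ b hb => h.linearIndependent b hb) (fun _ b hb => h.span b hb)

end General

section Modular

variable (L L' : Type*) [Field L] [Field L'] [Algebra ℚ L] [Algebra ℚ L'] [Algebra L L']
  [Algebra.IsAlgebraic ℚ L'] (N ℓ : ℕ) [NeZero N] [NeZero ℓ]

theorem compat_alpha :
    Compat (heckeAlphaBar L N ℓ).toRingHom (heckeAlphaBar L' N ℓ).toRingHom where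
  sq e := by
    apply Subtype.ext
    show coeffMap (algebraMap L L') (heckeAlphaBar L N ℓ e : LaurentSeries L) =
      (heckeAlphaBar L' N ℓ (baseChangeMap _ (algebraMap L L') e) : LaurentSeries L')
    rw [coe_heckeAlphaBar, coe_heckeAlphaBar]
    rfl
  const c := (heckeAlphaBar L' N ℓ).commutes c
  lin lam e := by
    show coeffLin lam (heckeAlphaBar L' N ℓ e : LaurentSeries L') =
      (heckeAlphaBar L N ℓ ⟨coeffLin lam (e : LaurentSeries L'), _⟩ : LaurentSeries L)
    rw [coe_heckeAlphaBar, coe_heckeAlphaBar]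

omit [Algebra ℚ L] [Algebra ℚ L'] [Algebra.IsAlgebraic ℚ L'] [NeZero N] in
theorem coeffLin_qExpand (lam : L' →ₗ[L] L) (x : LaurentSeries L') :
    coeffLin lam (qExpand L' ℓ x) = qExpand L ℓ (coeffLin lam x) := by
  ext k
  by_cases hk : (ℓ : ℤ) ∣ k
  · obtain ⟨m, rfl⟩ := hk
    rw [coeffLin_coeff, qExpand_coeff_mul, qExpand_coeff_mul, coeffLin_coeff]
  · rw [coeffLin_coeff, qExpand_coeff_of_not_dvd ℓ _ hk, qExpand_coeff_of_not_dvd ℓ _ hk, map_zero]

omit [NeZero N] in
theorem compat_beta :
    Compat (heckeBetaBar L N ℓ).toRingHom (heckeBetaBar L' N ℓ).toRingHom where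
  sq e := Subtype.ext (coeffMap_qExpand (algebraMap L L') ℓ (e : LaurentSeries L))
  const c := (heckeBetaBar L' N ℓ).commutes c
  lin lam e := coeffLin_qExpand L L' ℓ lam (e : LaurentSeries L')

/-- **L-BR (ii)(b), `α`.** -/
theorem nm_alpha_baseChangeMap (y : laurentBaseChange L (modularFunctionFieldFull (N * ℓ))) :
    nm (heckeAlphaBar L' N ℓ).toRingHom (baseChangeMap _ (algebraMap L L') y) =
      baseChangeMap _ (algebraMap L L') (nm (heckeAlphaBar L N ℓ).toRingHom y) :=
  (compat_alpha L L' N ℓ).nm_baseChangeMap y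

omit [NeZero N] in
/-- **L-BR (ii)(b), `β`.** -/
theorem nm_beta_baseChangeMap (y : laurentBaseChange L (modularFunctionFieldFull (N * ℓ))) :
    nm (heckeBetaBar L' N ℓ).toRingHom (baseChangeMap _ (algebraMap L L') y) =
      baseChangeMap _ (algebraMap L L') (nm (heckeBetaBar L N ℓ).toRingHom y) :=
  (compat_beta L L' N ℓ).nm_baseChangeMap y

theorem dg_alpha_eq : dg (heckeAlphaBar L' N ℓ).toRingHom = dg (heckeAlphaBar L N ℓ).toRingHom :=
  (compat_alpha L L' N ℓ).dg_eq

omit [NeZero N] in
theorem dg_beta_eq : dg (heckeBetaBar L' N ℓ).toRingHom = dg (heckeBetaBar L N ℓ).toRingHom :=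
  (compat_beta L L' N ℓ).dg_eq

end Modular

end Fermat.Agent.S36.Desc

end
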