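/-
S36, block DESC (owner helper135).  L-BR (ii)(c): an element of `K0 A · F₀` which becomes an `n`-th
power in `FN N = ℚ̄ · F₀` is a constant of `K0 A` times an `n`-th power of `K0 A · F₀`.
-/
import Fermat.Agent.S36.Desc.Model

set_option autoImplicit false

noncomputable section

namespace Fermat.Agent.S36.Desc

open ModularCurve AlgebraicCurve Fermat.Agent.S24 Fermat.Agent.GAL.E Fermat.Agent.S18.Descent

/-- **Field form.**  If `z ∈ FN N` is fixed by `H` and is an `n`-th power, then `z = c wⁿ` with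
`c = lc z` a constant and `w` fixed by `H`. -/
theorem exists_fixed_root (N n : ℕ) (hn : 0 < n) (H : Subgroup GQ) (z w : FN N) (hz0 : z ≠ 0)
    (hz : ∀ σ ∈ H, galF N σ z = z) (hw : z = w ^ n) :
    ∃ w₁ : FN N, w₁ ≠ 0 ∧ (∀ σ ∈ H, galF N σ w₁ = w₁) ∧
      z = algebraMap Kbar (FN N) (lc N z) * w₁ ^ n := by
  have hw0 : w ≠ 0 := by
    rintro rfl
    rw [zero_pow hn.ne'] at hw
    exact hz0 hw
  have hc : lc N w ≠ 0 := (map_ne_zero _).2 hw0
  have hcF : algebraMap Kbar (FN N) (lc N w) ≠ 0 := by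
    rw [Ne, map_eq_zero]; exact hc
  set w₁ : FN N := w * algebraMap Kbar (FN N) (lc N w)⁻¹ with hw₁
  have hlc : lc N w₁ = 1 := by
    rw [hw₁, map_mul, lc_algebraMap, mul_inv_cancel₀ hc]
  have hw₁0 : w₁ ≠ 0 := by
    intro h0
    rw [h0, map_zero] at hlc
    exact zero_ne_one hlc
  have hzw : z = algebraMap Kbar (FN N) (lc N z) * w₁ ^ n := by
    rw [hw₁, mul_pow, hw, map_pow, map_pow, map_inv₀, inv_pow]
    field_simp
  have hlcz : ∀ σ ∈ H, σ (lc N z) = lc N z := by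
    intro σ hσ
    rw [← lc_galF, hz σ hσ]
  have hcz : algebraMap Kbar (FN N) (lc N z) ≠ 0 := by
    rw [Ne, map_eq_zero]; exact (map_ne_zero _).2 hz0
  refine ⟨w₁, hw₁0, fun σ hσ => ?_, hzw⟩
  apply eq_of_pow_eq_of_lc N hn
  · apply mul_left_cancel₀ hcz
    have h1 : galF N σ z = algebraMap Kbar (FN N) (lc N z) * galF N σ w₁ ^ n := by
      conv_lhs => rw [hzw]
      rw [map_mul, map_pow, galF_algebraMap, hlcz σ hσ]
    rw [← h1, hz σ hσ, ← hzw]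
  · rw [lc_galF, hlc, map_one]
  · exact hlc

open Fermat.Agent.Lib.InertiaField in
/-- **L-BR (ii)(c).**  `y ∈ K0 A · F₀`, an `n`-th power in `ℚ̄ · F₀`, is `c * w₁ ^ n` with `c ∈ K0 A`
and `w₁ ∈ K0 A · F₀`. -/
theorem exists_K0_root (N n : ℕ) (hn : 0 < n) (A : ValuationSubring Kbar)
    (y : laurentBaseChange (K0 A) (modularFunctionFieldFull N)) (hy0 : y ≠ 0) (w : FN N)
    (hw : baseChangeMap (modularFunctionFieldFull N) (algebraMap (K0 A) Kbar) y = w ^ n) :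
    ∃ (c : K0 A) (w₁ : laurentBaseChange (K0 A) (modularFunctionFieldFull N)), c ≠ 0 ∧ w₁ ≠ 0 ∧
      y = algebraMap (K0 A) (laurentBaseChange (K0 A) (modularFunctionFieldFull N)) c * w₁ ^ n := by
  set Ψ := baseChangeMap (modularFunctionFieldFull N) (algebraMap (K0 A) Kbar) with hΨ
  have hz0 : Ψ y ≠ 0 := (map_ne_zero _).2 hy0
  have hfix : ∀ σ ∈ A.inertiaSubgroupIn ℚ, galF N σ (Ψ y) = Ψ y := fun σ hσ =>
    galF_eq_of_K0_model N A (Ψ y) (y : LaurentSeries (K0 A)) rfl σ hσ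
  obtain ⟨w₁, hw₁0, hw₁, hzw⟩ :=
    exists_fixed_root N n hn (A.inertiaSubgroupIn ℚ) (Ψ y) w hz0 hfix hw
  obtain ⟨y₁, hy₁, hy₁w⟩ := exists_K0_model N A w₁ hw₁
  have hc : lc N (Ψ y) ∈ K0 A := by
    rw [mem_K0_iff]
    intro σ hσ
    rw [← lc_galF, hfix σ hσ]
  have hΨ₁ : Ψ ⟨y₁, hy₁⟩ = w₁ := Subtype.ext hy₁w
  refine ⟨⟨lc N (Ψ y), hc⟩, ⟨y₁, hy₁⟩, ?_, ?_, ?_⟩
  · intro h0
    exact (map_ne_zero (lc N)).2 hz0 (congrArg Subtype.val h0)
  · intro h0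
    rw [h0, map_zero] at hΨ₁
    exact hw₁0 hΨ₁.symm
  · apply Ψ.injective
    rw [map_mul, map_pow, hΨ₁]
    have h2 : Ψ (algebraMap (K0 A) (laurentBaseChange (K0 A) (modularFunctionFieldFull N))
        ⟨lc N (Ψ y), hc⟩) = algebraMap Kbar (FN N) (lc N (Ψ y)) :=
      baseChangeMap_algebraMap _ _
    rw [h2]
    exact hzw

end Fermat.Agent.S36.Desc

end
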